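/-
[PK-RES]: characteristic polynomials and triviality under `GaloisRepAdic.residual` and
`ResidualGaloisRep.baseChangeAlong`.
-/
import Fermat.Prelude.Def_GaloisRep_Adic

set_option autoImplicit false
set_option linter.style.haveILetI false

open Polynomial
open scoped TensorProduct

namespace Fermat.Agent.JT3

noncomputable section

theorem prs_residual_rho {A : Type} [CommRing A] [IsLocalRing A] (ρ : GaloisRepAdic A)
    (σ : AlgebraicClosure ℚ ≃ₐ[ℚ] AlgebraicClosure ℚ) :
    ρ.residual.ρ σ = (ρ.ρ σ).baseChange (IsLocalRing.ResidueField A) := rfl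

theorem prs_residual_charpoly {A : Type} [CommRing A] [IsLocalRing A] (ρ : GaloisRepAdic A)
    (σ : AlgebraicClosure ℚ ≃ₐ[ℚ] AlgebraicClosure ℚ) :
    LinearMap.charpoly (ρ.residual.ρ σ) =
      (LinearMap.charpoly (ρ.ρ σ)).map (IsLocalRing.residue A) := by
  show LinearMap.charpoly ((ρ.ρ σ).baseChange (IsLocalRing.ResidueField A)) = _
  rw [LinearMap.charpoly_baseChange]
  rfl

theorem prs_residual_eq_one {A : Type} [CommRing A] [IsLocalRing A] (ρ : GaloisRepAdic A)
    (σ : AlgebraicClosure ℚ ≃ₐ[ℚ] AlgebraicClosure ℚ) (h : ρ.ρ σ = 1) :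
    ρ.residual.ρ σ = 1 := by
  show (ρ.ρ σ).baseChange (IsLocalRing.ResidueField A) = 1
  rw [h, LinearMap.baseChange_one]

theorem prs_baseChangeAlong_charpoly {k k' : Type} [Field k] [Field k'] (θ : k →+* k')
    (ρ : ResidualGaloisRep k) (σ : AlgebraicClosure ℚ ≃ₐ[ℚ] AlgebraicClosure ℚ) :
    LinearMap.charpoly ((ρ.baseChangeAlong θ).ρ σ) = (LinearMap.charpoly (ρ.ρ σ)).map θ := by
  letI : Algebra k k' := θ.toAlgebra
  show LinearMap.charpoly ((ρ.ρ σ).baseChange k') = _
  rw [LinearMap.charpoly_baseChange]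
  rfl

theorem prs_baseChangeAlong_eq_one {k k' : Type} [Field k] [Field k'] (θ : k →+* k')
    (ρ : ResidualGaloisRep k) (σ : AlgebraicClosure ℚ ≃ₐ[ℚ] AlgebraicClosure ℚ)
    (h : ρ.ρ σ = 1) : (ρ.baseChangeAlong θ).ρ σ = 1 := by
  letI : Algebra k k' := θ.toAlgebra
  show (ρ.ρ σ).baseChange k' = 1
  rw [h, LinearMap.baseChange_one]

/-- the trivial two-dimensional residual representation -/
def prs_trivialRep (k : Type) [Field k] : ResidualGaloisRep k where
  V := Fin 2 → k
  finrank_eq := by simp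
  ρ := 1
  factorsThroughFiniteLevel := ⟨⊥, inferInstance, fun _ _ => rfl⟩

end

end Fermat.Agent.JT3
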