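/-
JT3 / [PK-RES] (S29, S42 from S30): the complete discrete valuation ring attached to a prime of a
Dedekind domain.  For `v : HeightOneSpectrum R`, Mathlib's `v.adicCompletionIntegers K` is a discrete
valuation ring; we add: it is adically complete for its maximal ideal, its residue field is a
quotient of `R` (so finite when `R ⧸ v` is), and the kernel of `R → residue field` is `v`.
-/
import Mathlib

set_option autoImplicit false

namespace Fermat.Agent.JT3

open IsDedekindDomain HeightOneSpectrum WithZero

section Completion

variable {R : Type*} [CommRing R] [IsDedekindDomain R] (K : Type*) [Field K] [Algebra R K]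
  [IsFractionRing R K] (v : HeightOneSpectrum R)

/-- closed balls of the completion are closed -/
theorem prs_isClosed_le (γ : ℤᵐ⁰) : IsClosed {x : v.adicCompletion K | Valued.v x ≤ γ} := by
  rcases eq_or_ne γ 0 with rfl | hγ
  · have : {x : v.adicCompletion K | Valued.v x ≤ 0} = {0} := by
      ext x
      simp
    rw [this]
    exact isClosed_singleton
  · obtain ⟨y, hy⟩ := valuedAdicCompletion_surjective K v γ
    have : {x : v.adicCompletion K | Valued.v x ≤ γ}
        = {x | (Valued.v : Valuation (v.adicCompletion K) ℤᵐ⁰).restrict x ≤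
            (Valued.v : Valuation (v.adicCompletion K) ℤᵐ⁰).restrict y} := by
      ext x
      simp only [Set.mem_ofPred_eq]
      rw [Valuation.restrict_le_iff, hy]
    rw [this]
    exact Valued.isClosed_closedBall _ _

/-- a sequence whose successive differences are small is Cauchy -/
theorem prs_cauchySeq (g : ℕ → v.adicCompletion K)
    (h : ∀ m n, m ≤ n → Valued.v (g n - g m) ≤ exp (-(m : ℤ))) : CauchySeq g := by
  rw [(Valued.hasBasis_uniformity (v.adicCompletion K) ℤᵐ⁰).cauchySeq_iff]
  intro γ _
  have hγ : MonoidWithZeroHom.ValueGroup₀.embedding γ.1 ≠ (0 : ℤᵐ⁰) := by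
    intro h0
    exact γ.ne_zero (by simp at h0)
  obtain ⟨k, hk⟩ := WithZero.exists_exp_neg_natCast_lt hγ
  refine ⟨k, fun m hm n hn => ?_⟩
  simp only [Set.mem_ofPred_eq]
  rw [Valuation.restrict_lt_iff_lt_embedding]
  refine lt_of_le_of_lt ?_ hk
  rcases le_total m n with hmn | hmn
  · refine (h m n hmn).trans ?_
    rw [WithZero.exp_le_exp]
    omega
  · rw [← Valuation.map_sub_swap]
    refine (h n m hmn).trans ?_
    rw [WithZero.exp_le_exp]
    omega

/-- a uniformiser of the completed ring -/
theorem prs_exists_unif :
    ∃ ϖ : v.adicCompletionIntegers K, Valued.v (ϖ : v.adicCompletion K) = exp (-1 : ℤ) := by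
  obtain ⟨π, hπ⟩ := v.valuation_exists_uniformizer K
  have h1 : Valued.v ((π : K) : v.adicCompletion K) = exp (-1 : ℤ) := by
    rw [valuedAdicCompletion_eq_valuation', hπ]
  refine ⟨⟨(π : v.adicCompletion K), ?_⟩, h1⟩
  rw [mem_adicCompletionIntegers, h1, ← WithZero.exp_zero, WithZero.exp_le_exp]
  omega

/-- membership in a power of the maximal ideal, through the valuation -/
theorem prs_mem_maximalIdeal_pow (x : v.adicCompletionIntegers K) (n : ℕ) :
    x ∈ IsLocalRing.maximalIdeal (v.adicCompletionIntegers K) ^ n ↔
      Valued.v (x : v.adicCompletion K) ≤ exp (-(n : ℤ)) := by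
  obtain ⟨ϖ, hϖ⟩ := prs_exists_unif K v
  have hint := adicCompletionIntegers.integers K v
  have hmax : IsLocalRing.maximalIdeal (v.adicCompletionIntegers K) = Ideal.span {ϖ} := by
    ext y
    rw [Ideal.mem_span_singleton, hint.dvd_iff_le, IsLocalRing.mem_maximalIdeal, mem_nonunits_iff,
      adicCompletionIntegers.isUnit_iff_valued_eq_one]
    have hy : Valued.v (y : v.adicCompletion K) ≤ 1 := (mem_adicCompletionIntegers R K v).mp y.2
    show _ ↔ Valued.v (y : v.adicCompletion K) ≤ Valued.v (ϖ : v.adicCompletion K)
    rw [hϖ]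
    constructor
    · intro hne
      have hlt : Valued.v (y : v.adicCompletion K) < 1 := lt_of_le_of_ne hy hne
      have := (WithZero.lt_mul_exp_iff_le (x := Valued.v (y : v.adicCompletion K))
        (y := exp (-1 : ℤ)) WithZero.exp_ne_zero).mp
      apply this
      rw [← WithZero.exp_add]
      simpa using hlt
    · intro hle hone
      rw [hone, ← WithZero.exp_zero, WithZero.exp_le_exp] at hle
      omega
  rw [hmax, Ideal.span_singleton_pow, Ideal.mem_span_singleton, hint.dvd_iff_le]
  show Valued.v (x : v.adicCompletion K) ≤ Valued.v ((ϖ ^ n : v.adicCompletionIntegers K) :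
    v.adicCompletion K) ↔ _
  have hpow : ((ϖ ^ n : v.adicCompletionIntegers K) : v.adicCompletion K)
      = (ϖ : v.adicCompletion K) ^ n := by push_cast; rfl
  rw [hpow, map_pow, hϖ, ← WithZero.exp_nsmul]
  simp

/-- **the completed ring is adically complete for its maximal ideal** -/
theorem prs_isAdicComplete :
    IsAdicComplete (IsLocalRing.maximalIdeal (v.adicCompletionIntegers K))
      (v.adicCompletionIntegers K) := by
  have hsm : ∀ (n : ℕ) (x y : v.adicCompletionIntegers K),
      x ≡ y [SMOD (IsLocalRing.maximalIdeal (v.adicCompletionIntegers K) ^ n • ⊤ :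
        Submodule (v.adicCompletionIntegers K) (v.adicCompletionIntegers K))] ↔
      Valued.v ((x : v.adicCompletion K) - (y : v.adicCompletion K)) ≤ exp (-(n : ℤ)) := by
    intro n x y
    rw [SModEq.sub_mem, smul_eq_mul, Ideal.mul_top, prs_mem_maximalIdeal_pow]
    rfl
  refine { haus' := ?_, prec' := ?_ }
  · intro x hx
    by_contra hne
    have hv : Valued.v (x : v.adicCompletion K) ≠ 0 := by
      rw [ne_eq, map_eq_zero]
      exact fun h => hne (Subtype.ext h)
    obtain ⟨k, hk⟩ := WithZero.exists_exp_neg_natCast_lt hv
    have := (hsm k x 0).mp (hx k)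
    rw [ZeroMemClass.coe_zero, sub_zero] at this
    exact absurd (lt_of_le_of_lt this hk) (lt_irrefl _)
  · intro f hf
    have hg : ∀ m n, m ≤ n → Valued.v ((f n : v.adicCompletion K) - (f m : v.adicCompletion K))
        ≤ exp (-(m : ℤ)) := by
      intro m n hmn
      rw [← Valuation.map_sub_swap]
      exact (hsm m (f m) (f n)).mp (hf hmn)
    have hc : CauchySeq (fun n => (f n : v.adicCompletion K)) := prs_cauchySeq K v _ hg
    obtain ⟨L', hL'⟩ := cauchySeq_tendsto_of_complete hc
    have hlim : ∀ n : ℕ, Valued.v (L' - (f n : v.adicCompletion K)) ≤ exp (-(n : ℤ)) := by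
      intro n
      have hcl : IsClosed {x : v.adicCompletion K | Valued.v (x - (f n : v.adicCompletion K))
          ≤ exp (-(n : ℤ))} :=
        (prs_isClosed_le K v (exp (-(n : ℤ)))).preimage (continuous_id.sub continuous_const)
      refine hcl.mem_of_tendsto hL' ?_
      filter_upwards [Filter.eventually_ge_atTop n] with k hk
      exact hg n k hk
    have hL'mem : L' ∈ v.adicCompletionIntegers K := by
      rw [mem_adicCompletionIntegers]
      have h0 := hlim 0
      have hf0 : Valued.v ((f 0 : v.adicCompletion K)) ≤ 1 :=
        (mem_adicCompletionIntegers R K v).mp (f 0).2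
      have : L' = (L' - (f 0 : v.adicCompletion K)) + (f 0 : v.adicCompletion K) := by ring
      rw [this]
      refine (Valuation.map_add _ _ _).trans (max_le ?_ hf0)
      simpa using h0
    refine ⟨⟨L', hL'mem⟩, fun n => ?_⟩
    rw [hsm]
    rw [← Valuation.map_sub_swap]
    exact hlim n

/-- `R` is dense in the completed ring modulo the maximal ideal -/
theorem prs_exists_sub_mem (x : v.adicCompletionIntegers K) :
    ∃ r : R, x - algebraMap R (v.adicCompletionIntegers K) r
      ∈ IsLocalRing.maximalIdeal (v.adicCompletionIntegers K) := by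
  have hopen : IsOpen {z : v.adicCompletion K | Valued.v (z - (x : v.adicCompletion K)) < 1} := by
    have h1 : IsOpen {z : v.adicCompletion K |
        (Valued.v : Valuation (v.adicCompletion K) ℤᵐ⁰).restrict z < 1} :=
      Valued.isOpen_ball _ _
    have h2 := h1.preimage (continuous_id.sub (continuous_const (y := (x : v.adicCompletion K))))
    convert h2 using 1
    ext z
    simp only [Set.mem_ofPred_eq, Set.mem_preimage]
    rw [Valuation.restrict_lt_one_iff]
    rfl
  have hne : {z : v.adicCompletion K | Valued.v (z - (x : v.adicCompletion K)) < 1}.Nonempty :=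
    ⟨(x : v.adicCompletion K), by simp⟩
  obtain ⟨y, hy⟩ := (denseRange_algebraMap K v).exists_mem_open hopen hne
  simp only [Set.mem_ofPred_eq] at hy
  have hcK : ∀ z : K, algebraMap K (v.adicCompletion K) z = ((z : K) : v.adicCompletion K) := by
    intro z
    rw [algebraMap_adicCompletion]
    rfl
  rw [hcK] at hy
  have hx1 : Valued.v (x : v.adicCompletion K) ≤ 1 := (mem_adicCompletionIntegers R K v).mp x.2
  have hy1 : v.valuation K y ≤ 1 := by
    rw [← valuedAdicCompletion_eq_valuation']
    have : ((y : K) : v.adicCompletion K)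
        = (((y : K) : v.adicCompletion K) - (x : v.adicCompletion K)) + (x : v.adicCompletion K) := by
      ring
    rw [this]
    exact (Valuation.map_add _ _ _).trans (max_le hy.le hx1)
  obtain ⟨a, ha⟩ := exists_valuation_sub_lt_of_integer v hy1 1
  refine ⟨a, ?_⟩
  rw [IsLocalRing.mem_maximalIdeal, mem_nonunits_iff,
    adicCompletionIntegers.isUnit_iff_valued_eq_one]
  apply ne_of_lt
  have hcoe : ((x - algebraMap R (v.adicCompletionIntegers K) a : v.adicCompletionIntegers K) :
      v.adicCompletion K) = ((x : v.adicCompletion K) - ((y : K) : v.adicCompletion K))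
        + ((((y : K) : v.adicCompletion K)) - ((algebraMap R K a : K) : v.adicCompletion K)) := by
    rw [sub_add_sub_cancel]
    rfl
  rw [hcoe]
  refine lt_of_le_of_lt (Valuation.map_add _ _ _) (max_lt ?_ ?_)
  · rw [← Valuation.map_sub_swap]
    exact hy
  · rw [← Valuation.map_sub_swap]
    have : (((algebraMap R K a : K) : v.adicCompletion K)) - ((y : K) : v.adicCompletion K)
        = (((algebraMap R K a - y : K)) : v.adicCompletion K) := by
      rw [← hcK, ← hcK, ← hcK, map_sub]
    rw [this, valuedAdicCompletion_eq_valuation']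
    simpa using ha

/-- the residue map restricted to `R` -/
noncomputable def prs_resR : R →+* IsLocalRing.ResidueField (v.adicCompletionIntegers K) :=
  (IsLocalRing.residue (v.adicCompletionIntegers K)).comp
    (algebraMap R (v.adicCompletionIntegers K))

theorem prs_resR_apply (r : R) :
    prs_resR K v r = IsLocalRing.residue (v.adicCompletionIntegers K)
      (algebraMap R (v.adicCompletionIntegers K) r) := rfl

theorem prs_resR_surjective : Function.Surjective (prs_resR K v) := by
  intro z
  obtain ⟨x, rfl⟩ := IsLocalRing.residue_surjective z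
  obtain ⟨r, hr⟩ := prs_exists_sub_mem K v x
  refine ⟨r, ?_⟩
  rw [prs_resR_apply]
  symm
  rw [← sub_eq_zero, ← map_sub]
  exact (IsLocalRing.residue_eq_zero_iff _).mpr hr

theorem prs_algebraMap_mem_maximalIdeal_iff (r : R) :
    algebraMap R (v.adicCompletionIntegers K) r
      ∈ IsLocalRing.maximalIdeal (v.adicCompletionIntegers K) ↔ r ∈ v.asIdeal := by
  rw [IsLocalRing.mem_maximalIdeal, mem_nonunits_iff,
    adicCompletionIntegers.isUnit_iff_valued_eq_one, ← valuation_lt_one_iff_mem (K := K)]
  have h1 : Valued.v ((algebraMap R (v.adicCompletionIntegers K) r :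
      v.adicCompletionIntegers K) : v.adicCompletion K) = v.valuation K (algebraMap R K r) := by
    rw [← valuedAdicCompletion_eq_valuation']
    rfl
  rw [h1]
  have hle : v.valuation K (algebraMap R K r) ≤ 1 := v.valuation_le_one r
  exact ⟨fun h => lt_of_le_of_ne hle h, fun h => ne_of_lt h⟩

theorem prs_resR_ker : RingHom.ker (prs_resR K v) = v.asIdeal := by
  ext r
  rw [RingHom.mem_ker, prs_resR_apply, IsLocalRing.residue_eq_zero_iff,
    prs_algebraMap_mem_maximalIdeal_iff]

theorem prs_finite_residueField [Finite (R ⧸ v.asIdeal)] :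
    Finite (IsLocalRing.ResidueField (v.adicCompletionIntegers K)) := by
  have hle : ∀ a ∈ v.asIdeal, prs_resR K v a = 0 := fun a ha =>
    (RingHom.mem_ker).mp ((prs_resR_ker K v).ge ha)
  have hs : Function.Surjective (Ideal.Quotient.lift v.asIdeal (prs_resR K v) hle) := by
    intro z
    obtain ⟨r, rfl⟩ := prs_resR_surjective K v z
    exact ⟨Ideal.Quotient.mk _ r, Ideal.Quotient.lift_mk _ _ _⟩
  exact Finite.of_surjective _ hs

theorem prs_charZero [CharZero K] : CharZero (v.adicCompletionIntegers K) := by
  have : CharZero (v.adicCompletion K) :=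
    charZero_of_injective_algebraMap (algebraMap K (v.adicCompletion K)).injective
  refine ⟨fun a b hab => ?_⟩
  have := congrArg (Subtype.val : v.adicCompletionIntegers K → v.adicCompletion K) hab
  simpa using this

end Completion

end Fermat.Agent.JT3
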