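/-
[PK-RES] (a)(b): the eigencharacter of a normalized eigenform on the anemic Hecke algebra,
its integrality, and a number field containing its values.
-/
import Fermat.Agent.S49.Basic
import Fermat.Agent.S22
import Fermat.Prelude.Def_GaloisRep_Residual

set_option autoImplicit false

open CuspForm CongruenceSubgroup ModularFormClass UpperHalfPlane
open Fermat.Agent.S49

namespace Fermat.Agent.JT3

noncomputable section

variable {N : ℕ}

/-- the Hecke relation on `q`-coefficients of a normalized eigenform at a good prime -/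
theorem prs_qCoeff_hecke {g : CuspForm (Gamma0 N) 2} (hg : g.IsNormalizedEigenform)
    {ℓ : ℕ} (hℓ : ℓ.Prime) (hℓN : ¬ ℓ ∣ N) (n : ℕ) :
    qCoeff ⇑g (n * ℓ) + (if ℓ ∣ n then (ℓ : ℂ) * qCoeff ⇑g (n / ℓ) else 0) =
      qCoeff ⇑g ℓ * qCoeff ⇑g n := by
  rcases Nat.eq_zero_or_pos n with rfl | hn
  · simp [qc_coeff_zero]
  obtain ⟨r, m, hm, rfl⟩ := Nat.exists_eq_pow_mul_and_not_dvd hn.ne' ℓ hℓ.ne_one
  have hcop : ∀ s : ℕ, (ℓ ^ s).Coprime m := fun s =>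
    Nat.Coprime.pow_left s ((Nat.Prime.coprime_iff_not_dvd hℓ).2 hm)
  rcases r with _ | s
  · have h1 : ¬ ℓ ∣ ℓ ^ 0 * m := by simpa using hm
    rw [if_neg h1, add_zero]
    have h2 : m.Coprime ℓ := ((Nat.Prime.coprime_iff_not_dvd hℓ).2 hm).symm
    simp only [pow_zero, one_mul]
    rw [hg.qCoeff_mul_of_coprime m ℓ h2, mul_comm]
  · have h1 : ℓ ∣ ℓ ^ (s + 1) * m := Dvd.dvd.mul_right (dvd_pow_self ℓ (Nat.succ_ne_zero s)) m
    rw [if_pos h1]
    have e1 : ℓ ^ (s + 1) * m * ℓ = ℓ ^ (s + 2) * m := by ring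
    have e2 : ℓ ^ (s + 1) * m / ℓ = ℓ ^ s * m := by
      rw [pow_succ, mul_assoc, mul_comm ℓ m, ← mul_assoc]
      exact Nat.mul_div_cancel _ hℓ.pos
    rw [e1, e2, hg.qCoeff_mul_of_coprime _ _ (hcop (s + 2)),
      hg.qCoeff_mul_of_coprime _ _ (hcop (s + 1)), hg.qCoeff_mul_of_coprime _ _ (hcop s),
      hg.qCoeff_prime_pow_of_not_dvd ℓ s hℓ hℓN]
    ring

/-- a normalized eigenform is an eigenvector of `T_ℓ` for `ℓ ∤ N` with eigenvalue `a_ℓ` -/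
theorem prs_heckeT_eigen {g : CuspForm (Gamma0 N) 2} (hg : g.IsNormalizedEigenform)
    {ℓ : ℕ} (hℓ : ℓ.Prime) (hℓN : ¬ ℓ ∣ N) :
    heckeTLin 2 hℓ hℓN g = qCoeff ⇑g ℓ • g := by
  apply qc_ext
  intro n
  rw [qc_heckeT hℓ hℓN g n, qc_smul, prs_qCoeff_hecke hg hℓ hℓN n]

/-- endomorphisms having `g` as an eigenvector -/
def prs_eigenSub (g : CuspForm (Gamma0 N) 2) :
    Subalgebra ℤ (Module.End ℂ (CuspForm (Gamma0 N) 2)) where
  carrier := {T | ∃ c : ℂ, T g = c • g}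
  mul_mem' := by
    rintro a b ⟨c, hc⟩ ⟨d, hd⟩
    refine ⟨d * c, ?_⟩
    rw [Module.End.mul_apply, hd, map_smul, hc, smul_smul]
  one_mem' := ⟨1, by simp⟩
  add_mem' := by
    rintro a b ⟨c, hc⟩ ⟨d, hd⟩
    refine ⟨c + d, ?_⟩
    rw [LinearMap.add_apply, hc, hd, add_smul]
  zero_mem' := ⟨0, by simp⟩
  algebraMap_mem' := by
    intro z
    refine ⟨(z : ℂ), ?_⟩
    rw [Algebra.algebraMap_eq_smul_one, LinearMap.smul_apply, Module.End.one_apply]
    exact (Int.cast_smul_eq_zsmul ℂ z g).symm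

theorem prs_mem_eigenSub {g : CuspForm (Gamma0 N) 2} {T : Module.End ℂ (CuspForm (Gamma0 N) 2)} :
    T ∈ prs_eigenSub g ↔ ∃ c : ℂ, T g = c • g := Iff.rfl

theorem prs_heckeAlgebra_le_eigenSub [NeZero N] {g : CuspForm (Gamma0 N) 2}
    (hg : g.IsNormalizedEigenform) (S : Set ℕ) (hNS : ∀ q : ℕ, q.Prime → q ∣ N → q ∈ S) :
    heckeAlgebra N 2 S ≤ prs_eigenSub g := by
  apply Algebra.adjoin_le
  rintro T (⟨ℓ, hℓ, hℓN, -, rfl⟩ | ⟨q, hqN, hq, hqS, rfl⟩)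
  · exact ⟨_, prs_heckeT_eigen hg hℓ hℓN⟩
  · exact absurd (hNS q hq hqN) hqS

/-- every element of the Hecke algebra acts on `g` by the scalar `a_1(t g)` -/
theorem prs_apply_eq_smul [NeZero N] {g : CuspForm (Gamma0 N) 2}
    (hg : g.IsNormalizedEigenform) (S : Set ℕ) (hNS : ∀ q : ℕ, q.Prime → q ∣ N → q ∈ S)
    (t : heckeAlgebra N 2 S) :
    (t : Module.End ℂ (CuspForm (Gamma0 N) 2)) g =
      qCoeff ⇑((t : Module.End ℂ (CuspForm (Gamma0 N) 2)) g) 1 • g := by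
  obtain ⟨c, hc⟩ := prs_heckeAlgebra_le_eigenSub hg S hNS t.2
  rw [hc, qc_smul, hg.qCoeff_one, mul_one]

/-- the eigencharacter `t ↦ a_1(t g)` of a normalized eigenform -/
def prs_eigenchar [NeZero N] {g : CuspForm (Gamma0 N) 2}
    (hg : g.IsNormalizedEigenform) (S : Set ℕ) (hNS : ∀ q : ℕ, q.Prime → q ∣ N → q ∈ S) :
    heckeAlgebra N 2 S →+* ℂ where
  toFun t := qCoeff ⇑((t : Module.End ℂ (CuspForm (Gamma0 N) 2)) g) 1
  map_one' := by
    show qCoeff ⇑((1 : Module.End ℂ (CuspForm (Gamma0 N) 2)) g) 1 = 1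
    rw [Module.End.one_apply, hg.qCoeff_one]
  map_mul' := by
    intro a b
    show qCoeff ⇑(((a : Module.End ℂ (CuspForm (Gamma0 N) 2)) *
      (b : Module.End ℂ (CuspForm (Gamma0 N) 2))) g) 1 = _
    rw [Module.End.mul_apply, prs_apply_eq_smul hg S hNS b, map_smul, qc_smul, qc_smul,
      hg.qCoeff_one, mul_one, mul_comm]
  map_zero' := by
    show qCoeff ⇑((0 : Module.End ℂ (CuspForm (Gamma0 N) 2)) g) 1 = 0
    rw [LinearMap.zero_apply, qc_zero]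
  map_add' := by
    intro a b
    show qCoeff ⇑(((a : Module.End ℂ (CuspForm (Gamma0 N) 2)) +
      (b : Module.End ℂ (CuspForm (Gamma0 N) 2))) g) 1 = _
    rw [LinearMap.add_apply, qc_add]

theorem prs_eigenchar_apply [NeZero N] {g : CuspForm (Gamma0 N) 2}
    (hg : g.IsNormalizedEigenform) (S : Set ℕ) (hNS : ∀ q : ℕ, q.Prime → q ∣ N → q ∈ S)
    (t : heckeAlgebra N 2 S) :
    prs_eigenchar hg S hNS t = qCoeff ⇑((t : Module.End ℂ (CuspForm (Gamma0 N) 2)) g) 1 := rfl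

theorem prs_eigenchar_T [NeZero N] {g : CuspForm (Gamma0 N) 2}
    (hg : g.IsNormalizedEigenform) (S : Set ℕ) (hNS : ∀ q : ℕ, q.Prime → q ∣ N → q ∈ S)
    {ℓ : ℕ} (hℓ : ℓ.Prime) (hℓN : ¬ ℓ ∣ N) (hℓS : ℓ ∉ S) :
    prs_eigenchar hg S hNS (heckeAlgebra.T hℓ hℓN hℓS) = qCoeff ⇑g ℓ := by
  rw [prs_eigenchar_apply, heckeAlgebra.coe_T, prs_heckeT_eigen hg hℓ hℓN, qc_smul,
    hg.qCoeff_one, mul_one]

/-- values of the eigencharacter are algebraic integers (the Hecke algebra is a finite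
`ℤ`-module, S22) -/
theorem prs_eigenchar_isIntegral [NeZero N] {g : CuspForm (Gamma0 N) 2}
    (hg : g.IsNormalizedEigenform) (S : Set ℕ) (hNS : ∀ q : ℕ, q.Prime → q ∣ N → q ∈ S)
    (t : heckeAlgebra N 2 S) : IsIntegral ℤ (prs_eigenchar hg S hNS t) := by
  have hfin : Module.Finite ℤ (heckeAlgebra N 2 S) := Fermat.Agent.S22.result N 2 S
  have hint : IsIntegral ℤ t := Algebra.IsIntegral.isIntegral t
  exact map_isIntegral_int (prs_eigenchar hg S hNS) hint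

end

end Fermat.Agent.JT3
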