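/-
[PK-RES] (b): a number field containing the values of the eigencharacter, and the
eigencharacter with values in its ring of integers.
-/
import Fermat.Agent.JT3.Pack.Res.Eigenchar

set_option autoImplicit false
set_option linter.style.haveILetI false

open CuspForm CongruenceSubgroup ModularFormClass UpperHalfPlane
open scoped NumberField

namespace Fermat.Agent.JT3

noncomputable section

variable {N : ℕ}

theorem prs_exists_field [NeZero N] {g : CuspForm (Gamma0 N) 2}
    (hg : g.IsNormalizedEigenform) (S : Set ℕ) (hNS : ∀ q : ℕ, q.Prime → q ∣ N → q ∈ S) :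
    ∃ K : IntermediateField ℚ ℂ, FiniteDimensional ℚ K ∧
      ∀ t : heckeAlgebra N 2 S, prs_eigenchar hg S hNS t ∈ K := by
  have hfin : Module.Finite ℤ (heckeAlgebra N 2 S) := Fermat.Agent.S22.result N 2 S
  obtain ⟨G, hG⟩ := hfin.fg_top
  have hfinset : Finite ((fun t => prs_eigenchar hg S hNS t) '' (G : Set (heckeAlgebra N 2 S))) :=
    (G.finite_toSet.image _).to_subtype
  refine ⟨IntermediateField.adjoin ℚ
    ((fun t => prs_eigenchar hg S hNS t) '' (G : Set (heckeAlgebra N 2 S))), ?_, ?_⟩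
  · apply IntermediateField.finiteDimensional_adjoin
    rintro x ⟨t, -, rfl⟩
    exact (prs_eigenchar_isIntegral hg S hNS t).tower_top
  · intro t
    have ht : t ∈ Submodule.span ℤ (G : Set (heckeAlgebra N 2 S)) := by
      rw [hG]; exact Submodule.mem_top
    induction ht using Submodule.span_induction with
    | mem x hx => exact IntermediateField.subset_adjoin _ _ ⟨x, hx, rfl⟩
    | zero => rw [map_zero]; exact zero_mem _
    | add x y _ _ hx hy => rw [map_add]; exact add_mem hx hy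
    | smul z x _ hx =>
      rw [zsmul_eq_mul, map_mul, map_intCast]
      exact mul_mem (intCast_mem _ z) hx

theorem prs_exists_eigenchar_int [NeZero N] {g : CuspForm (Gamma0 N) 2}
    (hg : g.IsNormalizedEigenform) (S : Set ℕ) (hNS : ∀ q : ℕ, q.Prime → q ∣ N → q ∈ S) :
    ∃ (K : Type) (_ : Field K) (_ : NumberField K) (e : K →+* ℂ)
      (χ : heckeAlgebra N 2 S →+* 𝓞 K),
      ∀ (ℓ : ℕ) (hℓ : ℓ.Prime) (hℓN : ¬ ℓ ∣ N) (hℓS : ℓ ∉ S),
        e (χ (heckeAlgebra.T hℓ hℓN hℓS) : K) = qCoeff ⇑g ℓ := by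
  obtain ⟨K, hK, hmem⟩ := prs_exists_field hg S hNS
  haveI : NumberField K := @NumberField.mk K _ inferInstance hK
  have hfin : Module.Finite ℤ (heckeAlgebra N 2 S) := Fermat.Agent.S22.result N 2 S
  haveI : Algebra.IsIntegral ℤ (heckeAlgebra N 2 S) := Algebra.IsIntegral.of_finite _ _
  let χK : heckeAlgebra N 2 S →+* K := (prs_eigenchar hg S hNS).codRestrict K hmem
  letI : Algebra (heckeAlgebra N 2 S) K := χK.toAlgebra
  let χO : heckeAlgebra N 2 S →ₐ[ℤ] 𝓞 K := IsIntegralClosure.lift ℤ (𝓞 K) K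
  refine ⟨K, inferInstance, inferInstance, algebraMap K ℂ, χO.toRingHom, ?_⟩
  intro ℓ hℓ hℓN hℓS
  have h1 : algebraMap (𝓞 K) K (χO (heckeAlgebra.T hℓ hℓN hℓS)) =
      χK (heckeAlgebra.T hℓ hℓN hℓS) :=
    IsIntegralClosure.algebraMap_lift ℤ (𝓞 K) K _
  show algebraMap K ℂ (algebraMap (𝓞 K) K (χO (heckeAlgebra.T hℓ hℓN hℓS))) = _
  rw [h1]
  exact prs_eigenchar_T hg S hNS hℓ hℓN hℓS

end

end Fermat.Agent.JT3
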