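/-
[PK-RES] (e): the residue field `ℤ̄ ⧸ 𝔪` of the ring of all algebraic integers is algebraically
closed, and extension of embeddings of finite fields into algebraically closed fields.
-/
import Mathlib

set_option autoImplicit false
set_option linter.style.haveILetI false

open Polynomial

namespace Fermat.Agent.JT3

noncomputable section

/-- a complex root of a monic polynomial with algebraic-integer coefficients is an algebraic
integer -/
theorem prs_root_mem (q : (integralClosure ℤ ℂ)[X]) (hq : q.Monic) (z : ℂ)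
    (hz : (q.map (algebraMap (integralClosure ℤ ℂ) ℂ)).eval z = 0) :
    z ∈ integralClosure ℤ ℂ := by
  have h1 : IsIntegral (integralClosure ℤ ℂ) z := by
    refine ⟨q, hq, ?_⟩
    rwa [eval_map] at hz
  exact isIntegral_trans (R := ℤ) (A := integralClosure ℤ ℂ) z h1

/-- every monic polynomial of positive degree over `ℤ̄` has a root in `ℤ̄` -/
theorem prs_exists_root (q : (integralClosure ℤ ℂ)[X]) (hq : q.Monic) (hdeg : q.degree ≠ 0) :
    ∃ z : integralClosure ℤ ℂ, q.eval z = 0 := by
  have hdeg' : (q.map (algebraMap (integralClosure ℤ ℂ) ℂ)).degree ≠ 0 := by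
    rwa [hq.degree_map]
  obtain ⟨z, hz⟩ := IsAlgClosed.exists_root _ hdeg'
  refine ⟨⟨z, prs_root_mem q hq z hz⟩, ?_⟩
  have hinj : Function.Injective (algebraMap (integralClosure ℤ ℂ) ℂ) := Subtype.val_injective
  apply hinj
  rw [map_zero, ← hz, eval_map, ← eval₂_hom]
  rfl

/-- the residue fields of `ℤ̄` are algebraically closed -/
theorem prs_isAlgClosed_quot (𝔪 : Ideal (integralClosure ℤ ℂ)) [h𝔪 : 𝔪.IsMaximal] :
    @IsAlgClosed (integralClosure ℤ ℂ ⧸ 𝔪) (Ideal.Quotient.field 𝔪) := by
  letI := Ideal.Quotient.field 𝔪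
  refine IsAlgClosed.of_exists_root _ fun q hq hirr => ?_
  obtain ⟨q', hq'map, hq'deg, hq'monic⟩ :=
    lifts_and_degree_eq_and_monic
      ((mem_lifts q).mpr (map_surjective (Ideal.Quotient.mk 𝔪) Ideal.Quotient.mk_surjective q)) hq
  have hdeg : q'.degree ≠ 0 := by
    rw [hq'deg]
    exact (degree_pos_of_irreducible hirr).ne'
  obtain ⟨z, hz⟩ := prs_exists_root q' hq'monic hdeg
  refine ⟨Ideal.Quotient.mk 𝔪 z, ?_⟩
  rw [← hq'map, eval_map, eval₂_hom, hz, map_zero]

/-- a maximal ideal of `ℤ̄`: the kernel of a ring homomorphism to a field of positive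
characteristic -/
theorem prs_ker_isMaximal {k : Type*} [Field k] {p : ℕ} (hp : p.Prime) [CharP k p]
    (φ : integralClosure ℤ ℂ →+* k) : (RingHom.ker φ).IsMaximal := by
  haveI : (RingHom.ker φ).IsPrime := RingHom.ker_isPrime φ
  haveI : Algebra.IsIntegral ℤ (integralClosure ℤ ℂ) := inferInstance
  apply Ideal.isMaximal_of_isIntegral_of_isMaximal_comap (R := ℤ)
  have hpz : Prime (p : ℤ) := Nat.prime_iff_prime_int.mp hp
  have hmax : (Ideal.span {(p : ℤ)}).IsMaximal :=
    PrincipalIdealRing.isMaximal_of_irreducible hpz.irreducible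
  have hle : Ideal.span {(p : ℤ)} ≤ (RingHom.ker φ).comap (algebraMap ℤ (integralClosure ℤ ℂ)) := by
    rw [Ideal.span_le, Set.singleton_subset_iff]
    show algebraMap ℤ (integralClosure ℤ ℂ) (p : ℤ) ∈ RingHom.ker φ
    rw [RingHom.mem_ker, eq_intCast, map_intCast, Int.cast_natCast, CharP.cast_eq_zero]
  have hne : (RingHom.ker φ).comap (algebraMap ℤ (integralClosure ℤ ℂ)) ≠ ⊤ :=
    Ideal.comap_ne_top _ (Ideal.IsPrime.ne_top inferInstance)
  rw [← hmax.eq_of_le hne hle]
  exact hmax

/-- extension of an embedding of a quotient field to a finite field extension, with values in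
an algebraically closed field -/
theorem prs_exists_lift {A F M : Type*} [CommRing A] [Field F] [Finite F] [Field M]
    [IsAlgClosed M] (r : A →+* F) (s : A →+* M) (hmax : (RingHom.ker r).IsMaximal)
    (hker : RingHom.ker r ≤ RingHom.ker s) :
    ∃ θ : F →+* M, ∀ a : A, θ (r a) = s a := by
  letI : Field (A ⧸ RingHom.ker r) := Ideal.Quotient.field _
  letI : Algebra (A ⧸ RingHom.ker r) F := (RingHom.kerLift r).toAlgebra
  letI : Algebra (A ⧸ RingHom.ker r) M :=
    (Ideal.Quotient.lift (RingHom.ker r) s fun a ha => (RingHom.mem_ker).mp (hker ha)).toAlgebra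
  haveI : Module.Finite (A ⧸ RingHom.ker r) F := Module.Finite.of_finite
  haveI : Algebra.IsAlgebraic (A ⧸ RingHom.ker r) F := Algebra.IsAlgebraic.of_finite _ _
  refine ⟨(IsAlgClosed.lift (R := A ⧸ RingHom.ker r) (S := F) (M := M)).toRingHom, fun a => ?_⟩
  have h1 : r a = algebraMap (A ⧸ RingHom.ker r) F (Ideal.Quotient.mk _ a) := by
    rw [RingHom.algebraMap_toAlgebra]
    rfl
  have h2 : s a = algebraMap (A ⧸ RingHom.ker r) M (Ideal.Quotient.mk _ a) := by
    rw [RingHom.algebraMap_toAlgebra, Ideal.Quotient.lift_mk]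
  rw [h1, h2]
  exact AlgHom.commutes _ _

end

end Fermat.Agent.JT3
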