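/-
[PK-RES] (1): S29 (residual Galois representation attached to a normalized eigenform) from the
statement of S30 (`p`-adic Galois representation attached to a point of the Hecke algebra).
-/
import Fermat.Agent.JT3.Pack.Res.EigenField
import Fermat.Agent.JT3.Pack.Res.Completion
import Fermat.Agent.JT3.Pack.Res.Lift
import Fermat.Agent.JT3.Pack.Res.BaseChange
import Fermat.Prelude.Def_CuspForm_HeckeGaloisRepDatum

set_option autoImplicit false
set_option linter.style.haveILetI false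

open CuspForm CongruenceSubgroup ModularFormClass UpperHalfPlane Polynomial
open IsDedekindDomain
open scoped NumberField

namespace Fermat.Agent.JT3

noncomputable section

/-- the statement of S30, verbatim -/
def prs_S30Stmt : Prop :=
    ∀ (p : ℕ) [Fact p.Prime] (N : ℕ) [NeZero N] (S : Finset ℕ)
      (_hpS : p ∈ S) (_hNS : ∀ q : ℕ, q.Prime → q ∣ N → q ∈ S)
      (𝒪' : Type) [CommRing 𝒪'] [IsDomain 𝒪'] [IsDiscreteValuationRing 𝒪']
      [IsAdicComplete (IsLocalRing.maximalIdeal 𝒪') 𝒪'] [Finite (IsLocalRing.ResidueField 𝒪')]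
      [CharZero 𝒪'] (_hp𝒪' : (p : 𝒪') ∈ IsLocalRing.maximalIdeal 𝒪')
      (χ : CuspForm.heckeAlgebra N 2 (↑S : Set ℕ) →+* 𝒪'),
      ∃ (𝒪'' : Type) (_ : CommRing 𝒪'') (_ : IsDomain 𝒪'') (_ : IsDiscreteValuationRing 𝒪'')
        (_ : IsAdicComplete (IsLocalRing.maximalIdeal 𝒪'') 𝒪'')
        (_ : Finite (IsLocalRing.ResidueField 𝒪'')) (_ : CharZero 𝒪'')
        (_ : Algebra 𝒪' 𝒪'') (_ : Module.Finite 𝒪' 𝒪'') (_ : IsLocalHom (algebraMap 𝒪' 𝒪'')),
      Function.Injective (algebraMap 𝒪' 𝒪'') ∧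
      ∃ ρ : GaloisRepAdic 𝒪'',
        (∀ (ℓ : ℕ) (hℓ : ℓ.Prime) (hℓN : ¬ ℓ ∣ N) (hℓS : ℓ ∉ (↑S : Set ℕ)),
          ∀ A : ValuationSubring (AlgebraicClosure ℚ), A.LiesOverPrime ℓ →
            ∀ σ : AlgebraicClosure ℚ ≃ₐ[ℚ] AlgebraicClosure ℚ, A.IsFrobeniusAt σ ℓ →
              LinearMap.charpoly (ρ.ρ σ) =
                X ^ 2 - C (algebraMap 𝒪' 𝒪'' (χ (CuspForm.heckeAlgebra.T hℓ hℓN hℓS))) * X
                  + C ((ℓ : 𝒪''))) ∧
        (∀ q : ℕ, q.Prime → ¬ q ∣ N → q ≠ p → ρ.IsUnramifiedAt q)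

/-- the statement of S29, verbatim -/
def prs_S29Stmt : Prop :=
    ∀ {N : ℕ} {g : CuspForm (CongruenceSubgroup.Gamma0 N) 2} (_hg : g.IsNormalizedEigenform)
    {p : ℕ} (_hp : p.Prime) {k : Type} [Field k] [CharP k p]
    (φ : integralClosure ℤ ℂ →+* k),
    ∃ ρ : ResidualGaloisRep k, ρ.IsAttachedTo g φ ∧
      ∀ ℓ : ℕ, ℓ.Prime → ¬ ℓ ∣ N * p → ρ.IsUnramifiedAt ℓ

/-- the embedding of the ring of integers of a number field into `ℤ̄ ⊆ ℂ` -/
def prs_toZbar {K : Type} [Field K] [NumberField K] (e : K →+* ℂ) :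
    𝓞 K →+* integralClosure ℤ ℂ :=
  (e.comp (algebraMap (𝓞 K) K)).codRestrict (integralClosure ℤ ℂ) fun x =>
    map_isIntegral_int e (NumberField.RingOfIntegers.isIntegral_coe x)

theorem prs_toZbar_coe {K : Type} [Field K] [NumberField K] (e : K →+* ℂ) (x : 𝓞 K) :
    ((prs_toZbar e x : integralClosure ℤ ℂ) : ℂ) = e (x : K) := rfl

/-- the local data at the prime `ker (φ ∘ ι)` of `𝓞 K`: a complete DVR `𝒪'` with finite residue
field receiving `𝓞 K`, such that the kernel of `𝓞 K → 𝒪' → κ(𝒪')` is `ker (φ ∘ ι)`. -/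
theorem prs_exists_local {K : Type} [Field K] [NumberField K] (e : K →+* ℂ)
    {p : ℕ} (hp : p.Prime) {k : Type} [Field k] [CharP k p]
    (φ : integralClosure ℤ ℂ →+* k) :
    ∃ (𝒪' : Type) (_ : CommRing 𝒪') (_ : IsDomain 𝒪') (_ : IsDiscreteValuationRing 𝒪')
      (_ : IsAdicComplete (IsLocalRing.maximalIdeal 𝒪') 𝒪')
      (_ : Finite (IsLocalRing.ResidueField 𝒪')) (_ : CharZero 𝒪')
      (a : 𝓞 K →+* 𝒪'),
      (p : 𝒪') ∈ IsLocalRing.maximalIdeal 𝒪' ∧
      (RingHom.ker (φ.comp (prs_toZbar e))).IsMaximal ∧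
      ∀ x : 𝓞 K, a x ∈ IsLocalRing.maximalIdeal 𝒪' ↔ x ∈ RingHom.ker (φ.comp (prs_toZbar e)) := by
  have hprime : (RingHom.ker (φ.comp (prs_toZbar e))).IsPrime := RingHom.ker_isPrime _
  have hpmem : (p : 𝓞 K) ∈ RingHom.ker (φ.comp (prs_toZbar e)) := by
    rw [RingHom.mem_ker, map_natCast, CharP.cast_eq_zero]
  have hne : RingHom.ker (φ.comp (prs_toZbar e)) ≠ ⊥ := by
    intro h
    rw [h, Ideal.mem_bot] at hpmem
    exact hp.ne_zero (by exact_mod_cast hpmem)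
  let v : HeightOneSpectrum (𝓞 K) := ⟨RingHom.ker (φ.comp (prs_toZbar e)), hprime, hne⟩
  haveI : Finite (𝓞 K ⧸ v.asIdeal) := Ideal.finiteQuotientOfFreeOfNeBot v.asIdeal v.ne_bot
  refine ⟨v.adicCompletionIntegers K, inferInstance, inferInstance, inferInstance,
    prs_isAdicComplete K v, prs_finite_residueField K v, prs_charZero K v,
    algebraMap (𝓞 K) (v.adicCompletionIntegers K), ?_, v.isMaximal, ?_⟩
  · have : algebraMap (𝓞 K) (v.adicCompletionIntegers K) (p : 𝓞 K) =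
        (p : v.adicCompletionIntegers K) :=
      map_natCast (algebraMap (𝓞 K) (v.adicCompletionIntegers K)) p
    rw [← this]
    exact (prs_algebraMap_mem_maximalIdeal_iff K v _).mpr hpmem
  · intro x
    exact prs_algebraMap_mem_maximalIdeal_iff K v x

/-- S29 for `N ≠ 0`, given the eigencharacter with values in the ring of integers of a number
field -/
theorem prs_S29_core (h30 : prs_S30Stmt)
    {N : ℕ} [NeZero N] {g : CuspForm (Gamma0 N) 2}
    {p : ℕ} (hp : p.Prime) {k : Type} [Field k] [CharP k p]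
    (φ : integralClosure ℤ ℂ →+* k)
    (K : Type) [Field K] [NumberField K] (e : K →+* ℂ)
    (χ : heckeAlgebra N 2 (↑((N * p).primeFactors) : Set ℕ) →+* 𝓞 K)
    (hχ : ∀ (ℓ : ℕ) (hℓ : ℓ.Prime) (hℓN : ¬ ℓ ∣ N)
        (hℓS : ℓ ∉ (↑((N * p).primeFactors) : Set ℕ)),
        e (χ (heckeAlgebra.T hℓ hℓN hℓS) : K) = qCoeff ⇑g ℓ) :
    ∃ ρ : ResidualGaloisRep k, ρ.IsAttachedTo g φ ∧
      ∀ ℓ : ℕ, ℓ.Prime → ¬ ℓ ∣ N * p → ρ.IsUnramifiedAt ℓ := by
  obtain ⟨O', i1, i2, i3, i4, i5, i6, a, hpO', hmax, hker⟩ := prs_exists_local e hp φ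
  haveI : Fact p.Prime := ⟨hp⟩
  have hNp : N * p ≠ 0 := mul_ne_zero (NeZero.ne N) hp.ne_zero
  have hpS : p ∈ (N * p).primeFactors := by
    rw [Nat.mem_primeFactors]; exact ⟨hp, dvd_mul_left p N, hNp⟩
  have hNS : ∀ q : ℕ, q.Prime → q ∣ N → q ∈ (N * p).primeFactors := fun q hq hqN => by
    rw [Nat.mem_primeFactors]; exact ⟨hq, hqN.mul_right p, hNp⟩
  obtain ⟨O'', j1, j2, j3, j4, j5, j6, j7, j8, j9, hinj, ρ, hfrob, hunr⟩ :=
    h30 p N (N * p).primeFactors hpS hNS O' hpO' (a.comp χ)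
  -- the map `𝓞 K → κ(𝒪'')`
  obtain ⟨r, hr⟩ : ∃ r : 𝓞 K →+* IsLocalRing.ResidueField O'',
      ∀ x, r x = IsLocalRing.residue O'' (algebraMap O' O'' (a x)) :=
    ⟨(IsLocalRing.residue O'').comp ((algebraMap O' O'').comp a), fun _ => rfl⟩
  have hr_ker : RingHom.ker r = RingHom.ker (φ.comp (prs_toZbar e)) := by
    ext x
    rw [RingHom.mem_ker, ← hker x, hr, IsLocalRing.residue_eq_zero_iff]
    constructor
    · intro h
      by_contra hx
      have hu : IsUnit (a x) := by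
        rwa [IsLocalRing.mem_maximalIdeal, mem_nonunits_iff, not_not] at hx
      exact (IsLocalRing.mem_maximalIdeal _).mp h (hu.map (algebraMap O' O''))
    · intro h
      rw [IsLocalRing.mem_maximalIdeal, mem_nonunits_iff] at h ⊢
      exact fun hu => h (isUnit_of_map_unit (algebraMap O' O'') _ hu)
  -- the algebraically closed field `ℤ̄ ⧸ ker φ` and the lift
  haveI hφmax : (RingHom.ker φ).IsMaximal := prs_ker_isMaximal hp φ
  letI : Field (integralClosure ℤ ℂ ⧸ RingHom.ker φ) := Ideal.Quotient.field _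
  haveI : IsAlgClosed (integralClosure ℤ ℂ ⧸ RingHom.ker φ) := prs_isAlgClosed_quot _
  obtain ⟨θ0, hθ0⟩ := prs_exists_lift r
    ((Ideal.Quotient.mk (RingHom.ker φ)).comp (prs_toZbar e)) (hr_ker ▸ hmax) (by
      rw [hr_ker]
      intro x hx
      rw [RingHom.mem_ker] at hx ⊢
      rw [RingHom.comp_apply, Ideal.Quotient.eq_zero_iff_mem, RingHom.mem_ker]
      exact hx)
  obtain ⟨θ, hθ⟩ : ∃ θ : IsLocalRing.ResidueField O'' →+* k,
      ∀ x : 𝓞 K, θ (r x) = φ (prs_toZbar e x) := by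
    refine ⟨(RingHom.kerLift φ).comp θ0, fun x => ?_⟩
    rw [RingHom.comp_apply, hθ0 x, RingHom.comp_apply, RingHom.kerLift_mk]
  refine ⟨ρ.residual.baseChangeAlong θ, ?_, ?_⟩
  · intro ℓ hℓ hℓN hℓk A hA σ hσ
    have hℓp : ℓ ≠ p := by
      rintro rfl
      exact hℓk (CharP.cast_eq_zero k ℓ)
    have hℓS : ℓ ∉ (↑((N * p).primeFactors) : Set ℕ) := by
      rw [Finset.mem_coe, Nat.mem_primeFactors]
      rintro ⟨-, hdvd, -⟩
      rcases (Nat.Prime.dvd_mul hℓ).mp hdvd with h | h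
      · exact hℓN h
      · exact hℓp ((Nat.prime_dvd_prime_iff_eq hℓ hp).mp h)
    refine ⟨prs_toZbar e (χ (heckeAlgebra.T hℓ hℓN hℓS)), ?_, ?_⟩
    · rw [prs_toZbar_coe, hχ]
    · rw [prs_baseChangeAlong_charpoly, prs_residual_charpoly, hfrob ℓ hℓ hℓN hℓS A hA σ hσ,
        Polynomial.map_map]
      simp only [Polynomial.map_add, Polynomial.map_sub, Polynomial.map_mul, Polynomial.map_pow,
        Polynomial.map_X, Polynomial.map_C, map_natCast, Polynomial.map_natCast,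
        RingHom.comp_apply]
      rw [← hθ, hr]
  · intro ℓ hℓ hℓNp A hA σ hσ
    have hℓN : ¬ ℓ ∣ N := fun h => hℓNp (h.mul_right p)
    have hℓp : ℓ ≠ p := by
      rintro rfl
      exact hℓNp (dvd_mul_left ℓ N)
    exact prs_baseChangeAlong_eq_one θ _ σ
      (prs_residual_eq_one ρ σ (hunr ℓ hℓ hℓN hℓp A hA σ hσ))

/-- S29 from the statement of S30 -/
theorem prs_S29_of_S30 (h30 : prs_S30Stmt) : prs_S29Stmt := by
  intro N g hg p hp k _ _ φ
  rcases Nat.eq_zero_or_pos N with rfl | hN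
  · refine ⟨prs_trivialRep k, ?_, ?_⟩
    · intro ℓ _ hℓN
      exact absurd (dvd_zero ℓ) hℓN
    · intro ℓ _ hℓN
      rw [zero_mul] at hℓN
      exact absurd (dvd_zero ℓ) hℓN
  · haveI : NeZero N := ⟨hN.ne'⟩
    have hNp : N * p ≠ 0 := mul_ne_zero hN.ne' hp.ne_zero
    have hNS : ∀ q : ℕ, q.Prime → q ∣ N → q ∈ (↑((N * p).primeFactors) : Set ℕ) :=
      fun q hq hqN => by
        rw [Finset.mem_coe, Nat.mem_primeFactors]; exact ⟨hq, hqN.mul_right p, hNp⟩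
    obtain ⟨K, iK, iNF, e, χ, hχ⟩ := prs_exists_eigenchar_int hg _ hNS
    exact prs_S29_core h30 hp φ K e χ hχ

end

end Fermat.Agent.JT3
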