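/-
[PK-RES] (2): S42 (`EigenformResidualAttachmentAt` for all levels) from the statement of S29.
-/
import Fermat.Agent.JT3.Pack.Res.S29
import Fermat.Agent.S13.Ladder.Torsion
import Fermat.Agent.S05.FreyLocal
import Fermat.Prelude.Def_FreyPackage_EigenformResidualAttachment

set_option autoImplicit false
set_option linter.style.haveILetI false

open CuspForm CongruenceSubgroup ModularFormClass Polynomial
open WeierstrassCurve WeierstrassCurve.Affine WeierstrassCurve.Affine.Point

namespace Fermat.Agent.JT3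

noncomputable section

local notation "Qb" => AlgebraicClosure ℚ
local notation "Gq" => (AlgebraicClosure ℚ ≃ₐ[ℚ] AlgebraicClosure ℚ)

/-- trace and determinant from the characteristic polynomial in rank two -/
theorem prs_trace_det_of_charpoly {K V : Type*} [Field K] [AddCommGroup V] [Module K V]
    [Module.Finite K V] (hd : Module.finrank K V = 2) (f : Module.End K V) (t d : K)
    (h : LinearMap.charpoly f = X ^ 2 - C t * X + C d) :
    LinearMap.trace K V f = t ∧ LinearMap.det f = d := by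
  let b := Module.finBasisOfFinrankEq K V hd
  have h1 := Matrix.charpoly_fin_two (LinearMap.toMatrix b b f)
  rw [LinearMap.charpoly_toMatrix f b, h, ← LinearMap.trace_eq_matrix_trace K b f,
    LinearMap.det_toMatrix b f] at h1
  constructor
  · have := congrArg (fun q => q.coeff 1) h1
    simp only [coeff_add, coeff_sub, coeff_X_pow, coeff_C_mul, coeff_X_one, coeff_C] at this
    norm_num at this
    exact this.symm
  · have := congrArg (fun q => q.coeff 0) h1
    simp only [coeff_add, coeff_sub, coeff_X_pow, coeff_C_mul, coeff_X_zero, coeff_C_zero] at this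
    norm_num at this
    exact this.symm

/-- the coordinates of a point -/
def prs_coords {W : Affine Qb} : W.Point → Set Qb
  | .zero => ∅
  | .some x y _ => {x, y}

theorem prs_coords_finite {W : Affine Qb} (P : W.Point) : (prs_coords P).Finite := by
  cases P with
  | zero => exact Set.finite_empty
  | some x y h => exact Set.toFinite {x, y}

theorem prs_some_congr {W : Affine Qb} {x y x' y' : Qb} (h : W.Nonsingular x y)
    (h' : W.Nonsingular x' y') (hx : x' = x) (hy : y' = y) :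
    Point.some x' y' h' = Point.some x y h := by
  subst hx hy; rfl

theorem prs_smul_eq_self {W' : Affine ℚ} (σ : Gq) (P : (W'⁄Qb).Point)
    (h : ∀ z ∈ prs_coords P, σ z = z) : σ • P = P := by
  cases P with
  | zero => rfl
  | some x y hxy =>
    rw [algEquiv_smul_def, Point.map_some]
    exact prs_some_congr _ _ (h x (Or.inl rfl)) (h y (Or.inr rfl))

/-- the Galois action on a finite torsion subgroup factors through a finite level -/
theorem prs_torsion_level (W' : Affine ℚ) (n : ℕ)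
    [Finite (Submodule.torsionBy ℤ (W'⁄Qb).Point n)] :
    GaloisFactorsThroughFiniteLevel (galoisRepModuleEnd (K := Qb) ℚ W' n) := by
  have hfin : (⋃ P : Submodule.torsionBy ℤ (W'⁄Qb).Point n,
      prs_coords (P : (W'⁄Qb).Point)).Finite :=
    Set.finite_iUnion fun P => prs_coords_finite _
  haveI : Finite (⋃ P : Submodule.torsionBy ℤ (W'⁄Qb).Point n,
      prs_coords (P : (W'⁄Qb).Point)) := hfin.to_subtype
  refine ⟨IntermediateField.adjoin ℚ (⋃ P : Submodule.torsionBy ℤ (W'⁄Qb).Point n,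
      prs_coords (P : (W'⁄Qb).Point)), ?_, ?_⟩
  · haveI : Algebra.IsAlgebraic ℚ Qb := AlgebraicClosure.isAlgebraic ℚ
    exact IntermediateField.finiteDimensional_adjoin fun x _ =>
      Algebra.IsIntegral.isIntegral x
  · intro σ hσ
    refine LinearMap.ext fun x => Subtype.ext ?_
    show σ • (x : (W'⁄Qb).Point) = x
    refine prs_smul_eq_self σ _ fun z hz => hσ z ?_
    exact IntermediateField.subset_adjoin _ _ (Set.mem_iUnion.mpr ⟨x, hz⟩)

/-- a finite Galois extension of `ℚ` inside `ℚ̄` containing a given finite extension -/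
theorem prs_exists_galois (L : IntermediateField ℚ Qb) [FiniteDimensional ℚ L] :
    ∃ (F : Type) (_ : Field F) (_ : NumberField F) (_ : IsGalois ℚ F)
      (_ : Algebra F Qb) (_ : IsScalarTower ℚ F Qb),
      ∀ σ : Gq, σ ∈ (AlgEquiv.restrictNormalHom (F := ℚ) (K₁ := Qb) F).ker →
        ∀ x ∈ L, σ x = x := by
  haveI : FiniteDimensional ℚ (IntermediateField.normalClosure ℚ L Qb) :=
    normalClosure.is_finiteDimensional ℚ L Qb
  haveI : Algebra.IsAlgebraic ℚ Qb := AlgebraicClosure.isAlgebraic ℚ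
  haveI : IsAlgClosure ℚ Qb := ⟨inferInstance, inferInstance⟩
  haveI : Normal ℚ Qb := IsAlgClosure.normal ℚ Qb
  haveI : Normal ℚ (IntermediateField.normalClosure ℚ L Qb) := normalClosure.normal ℚ L Qb
  haveI : NumberField (IntermediateField.normalClosure ℚ L Qb) :=
    @NumberField.mk _ _ inferInstance inferInstance
  haveI : IsGalois ℚ (IntermediateField.normalClosure ℚ L Qb) := ⟨⟩
  refine ⟨IntermediateField.normalClosure ℚ L Qb, inferInstance, inferInstance, inferInstance,
    inferInstance, inferInstance, ?_⟩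
  intro σ hσ x hx
  rw [MonoidHom.mem_ker] at hσ
  have hxF : x ∈ IntermediateField.normalClosure ℚ L Qb := L.le_normalClosure hx
  have h1 := AlgEquiv.restrictNormal_commutes σ (IntermediateField.normalClosure ℚ L Qb) ⟨x, hxF⟩
  have h2 : σ.restrictNormal (IntermediateField.normalClosure ℚ L Qb) = 1 := hσ
  rw [h2] at h1
  exact h1.symm

/-- S42 from the statement of S29 -/
theorem prs_S42_of_S29 (h29 : prs_S29Stmt) (P : FreyPackage) :
    ∀ M : ℕ, 0 < M → P.EigenformResidualAttachmentAt M := by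
  intro M _ g hg 𝔪 h𝔪 hp𝔪
  letI : Field (integralClosure ℤ ℂ ⧸ 𝔪) := Ideal.Quotient.field 𝔪
  haveI hchar : CharP (integralClosure ℤ ℂ ⧸ 𝔪) P.p := by
    rw [CharP.charP_iff_prime_eq_zero P.pp]
    have : ((P.p : integralClosure ℤ ℂ ⧸ 𝔪)) = Ideal.Quotient.mk 𝔪 (P.p : integralClosure ℤ ℂ) :=
      (map_natCast (Ideal.Quotient.mk 𝔪) P.p).symm
    rw [this, Ideal.Quotient.eq_zero_iff_mem]
    exact hp𝔪
  obtain ⟨ρ, hatt, -⟩ := h29 hg P.pp (k := integralClosure ℤ ℂ ⧸ 𝔪) (Ideal.Quotient.mk 𝔪)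
  obtain ⟨L1, hL1, h1⟩ := ρ.factorsThroughFiniteLevel
  haveI : Finite (Submodule.torsionBy ℤ (P.freyCurve⁄Qb).Point P.p) :=
    Fermat.Agent.S13.ld_finite_torsionBy P.freyCurve (Fermat.Agent.S05.freyL_Δ_ne_zero P) P.hp_odd
  obtain ⟨L2, hL2, h2⟩ := prs_torsion_level P.freyCurve P.p
  haveI := hL1
  haveI := hL2
  haveI : FiniteDimensional ℚ ↥(L1 ⊔ L2) := IntermediateField.finiteDimensional_sup L1 L2
  obtain ⟨F, iF1, iF2, iF3, iF4, iF5, hF⟩ := prs_exists_galois (L1 ⊔ L2)
  have hℓK : ∀ ℓ : ℕ, ℓ.Prime → ℓ ≠ P.p → ((ℓ : integralClosure ℤ ℂ ⧸ 𝔪)) ≠ 0 := by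
    intro ℓ hℓ hℓp h0
    rw [CharP.cast_eq_zero_iff (integralClosure ℤ ℂ ⧸ 𝔪) P.p] at h0
    exact hℓp ((Nat.prime_dvd_prime_iff_eq P.pp hℓ).mp h0).symm
  refine ⟨integralClosure ℤ ℂ ⧸ 𝔪, inferInstance, ZMod.algebra _ P.p, ρ.V, inferInstance,
    inferInstance, ρ.ρ, Ideal.Quotient.mk 𝔪, F, iF1, iF2, iF3, iF4, iF5, ?_, ρ.finrank_eq, ?_, ?_, ?_⟩
  · intro x hx
    rw [RingHom.mem_ker, Ideal.Quotient.eq_zero_iff_mem]
    exact hx
  · intro σ hσ
    have hfix := hF σ hσ
    rw [Subgroup.mem_inf]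
    constructor
    · rw [MonoidHom.mem_ker]
      exact h2 σ fun x hx => hfix x ((le_sup_right : L2 ≤ L1 ⊔ L2) hx)
    · rw [MonoidHom.mem_ker]
      exact h1 σ fun x hx => hfix x ((le_sup_left : L1 ≤ L1 ⊔ L2) hx)
  · intro ℓ hℓ hℓM hℓp A hA τ hτ
    obtain ⟨a, ha, hcp⟩ := hatt ℓ hℓ hℓM (hℓK ℓ hℓ hℓp) A hA τ hτ
    exact ⟨a, ha, (prs_trace_det_of_charpoly ρ.finrank_eq _ _ _ hcp).1⟩
  · intro ℓ hℓ hℓM hℓp A hA τ hτ
    obtain ⟨a, ha, hcp⟩ := hatt ℓ hℓ hℓM (hℓK ℓ hℓ hℓp) A hA τ hτ
    exact (prs_trace_det_of_charpoly ρ.finrank_eq _ _ _ hcp).2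

end

end Fermat.Agent.JT3
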